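/-
Cluster J (S59), leaf CAR (helper22): elementary identities for `2 × 2` matrices over a
commutative ring, and the "corner" map attached to an idempotent of trace one.
-/
import Mathlib

set_option autoImplicit false

namespace Fermat.Agent.S59.Car

open Matrix

variable {A : Type*} [CommRing A]

/-- Cayley–Hamilton for `2 × 2` matrices. -/
lemma mat2_sq (x : Matrix (Fin 2) (Fin 2) A) :
    x * x = x.trace • x - x.det • (1 : Matrix (Fin 2) (Fin 2) A) := by
  ext i j
  fin_cases i <;> fin_cases j <;>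
    simp [Matrix.mul_apply, Fin.sum_univ_two, Matrix.trace, Matrix.det_fin_two] <;> ring

/-- Polarised Cayley–Hamilton for `2 × 2` matrices. -/
lemma mat2_polar (a b : Matrix (Fin 2) (Fin 2) A) :
    a * b + b * a = a.trace • b + b.trace • a +
      ((a * b).trace - a.trace * b.trace) • (1 : Matrix (Fin 2) (Fin 2) A) := by
  ext i j
  fin_cases i <;> fin_cases j <;>
    simp [Matrix.mul_apply, Fin.sum_univ_two, Matrix.trace] <;> ring

/-- `det x * tr x = tr x * tr (x²) - tr (x³)`. -/
lemma mat2_det_mul_trace (x : Matrix (Fin 2) (Fin 2) A) :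
    x.det * x.trace = x.trace * (x * x).trace - (x * x * x).trace := by
  simp [Matrix.mul_apply, Fin.sum_univ_two, Matrix.trace, Matrix.det_fin_two]
  ring

/-- An idempotent of trace one has determinant zero. -/
lemma mat2_det_eq_zero_of_idem {e : Matrix (Fin 2) (Fin 2) A} (he : e * e = e)
    (ht : e.trace = 1) : e.det = 0 := by
  have h := mat2_sq e
  rw [he, ht, one_smul] at h
  have h2 : e.det • (1 : Matrix (Fin 2) (Fin 2) A) = 0 := by
    have := sub_eq_zero.mpr h
    simpa using this
  have h3 := congrFun (congrFun h2 0) 0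
  simpa using h3

/-- For an idempotent `e` of trace one, `e x e = tr (e x) e`. -/
lemma mat2_corner {e : Matrix (Fin 2) (Fin 2) A} (he : e * e = e) (ht : e.trace = 1)
    (x : Matrix (Fin 2) (Fin 2) A) : e * x * e = (e * x).trace • e := by
  have h := mat2_polar e x
  have h2 : e * (e * x + x * e) = e * (e.trace • x + x.trace • e +
      ((e * x).trace - e.trace * x.trace) • (1 : Matrix (Fin 2) (Fin 2) A)) := by rw [h]
  rw [mul_add, ← mul_assoc, he, ← mul_assoc, ht, one_smul, one_mul, mul_add, mul_add,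
    Matrix.mul_smul, he, Matrix.mul_smul, mul_one] at h2
  have h3 : e * x * e = x.trace • e + ((e * x).trace - x.trace) • e := by
    have := add_left_cancel (a := e * x) (b := e * x * e)
      (c := x.trace • e + ((e * x).trace - x.trace) • e) (by rw [h2]; abel)
    exact this
  rw [h3, ← add_smul]
  congr 1
  ring

/-- If `b` is a root of the characteristic polynomial of `x`, then
`(x - b)² = (tr x - 2 b) (x - b)`. -/
lemma mat2_sub_smul_sq (x : Matrix (Fin 2) (Fin 2) A) (b : A)
    (hb : b * b - x.trace * b + x.det = 0) :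
    (x - b • (1 : Matrix (Fin 2) (Fin 2) A)) * (x - b • (1 : Matrix (Fin 2) (Fin 2) A)) =
      (x.trace - 2 * b) • (x - b • (1 : Matrix (Fin 2) (Fin 2) A)) := by
  simp only [Matrix.trace, Matrix.diag_apply, Fin.sum_univ_two, Matrix.det_fin_two] at hb ⊢
  ext i j
  fin_cases i <;> fin_cases j <;>
    simp [Matrix.mul_apply, Fin.sum_univ_two] <;>
    first
      | ring1
      | linear_combination (-1 : A) * hb

/-- `1 - e` is an idempotent of trace one if `e` is. -/
lemma mat2_one_sub_idem {e : Matrix (Fin 2) (Fin 2) A} (he : e * e = e) :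
    (1 - e) * (1 - e) = 1 - e := by
  rw [mul_sub, mul_one, sub_mul, one_mul, he, sub_self, sub_zero]

lemma mat2_one_sub_trace {e : Matrix (Fin 2) (Fin 2) A} (ht : e.trace = 1) :
    (1 - e : Matrix (Fin 2) (Fin 2) A).trace = 1 := by
  rw [Matrix.trace_sub, ht, Matrix.trace_one, Fintype.card_fin]
  norm_num

end Fermat.Agent.S59.Car

namespace Fermat.Agent.S59.Car

open Matrix

variable {A : Type*} [CommRing A]

/-- The "corner" map attached to `K L : Fin 2 → M₂(A)`: `x ↦ (tr (K j * x * L l))_{j l}`. -/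
def gma (K L : Fin 2 → Matrix (Fin 2) (Fin 2) A) (x : Matrix (Fin 2) (Fin 2) A) :
    Matrix (Fin 2) (Fin 2) A :=
  Matrix.of fun j l => (K j * x * L l).trace

lemma gma_apply (K L : Fin 2 → Matrix (Fin 2) (Fin 2) A) (x : Matrix (Fin 2) (Fin 2) A)
    (j l : Fin 2) : gma K L x j l = (K j * x * L l).trace := rfl

lemma gma_add (K L : Fin 2 → Matrix (Fin 2) (Fin 2) A) (x y : Matrix (Fin 2) (Fin 2) A) :
    gma K L (x + y) = gma K L x + gma K L y := by
  ext j l
  simp only [gma_apply, Matrix.add_apply, mul_add, add_mul, Matrix.trace_add]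

lemma gma_smul (K L : Fin 2 → Matrix (Fin 2) (Fin 2) A) (c : A)
    (x : Matrix (Fin 2) (Fin 2) A) : gma K L (c • x) = c • gma K L x := by
  ext j l
  simp only [gma_apply, Matrix.smul_apply, Matrix.mul_smul, Matrix.smul_mul, Matrix.trace_smul]

lemma gma_sum {ι : Type*} (s : Finset ι) (K L : Fin 2 → Matrix (Fin 2) (Fin 2) A)
    (x : ι → Matrix (Fin 2) (Fin 2) A) :
    gma K L (∑ a ∈ s, x a) = ∑ a ∈ s, gma K L (x a) := by
  classical
  induction s using Finset.induction_on with
  | empty =>
    ext j l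
    simp [gma_apply]
  | insert a s ha ih => rw [Finset.sum_insert ha, Finset.sum_insert ha, gma_add, ih]

section

variable {e : Matrix (Fin 2) (Fin 2) A} {K L : Fin 2 → Matrix (Fin 2) (Fin 2) A}
  (he : e * e = e) (ht : e.trace = 1) (hK : ∀ j, e * K j = K j) (hL : ∀ l, L l * e = L l)
include he ht hK hL

lemma gma_corner (x : Matrix (Fin 2) (Fin 2) A) (j l : Fin 2) :
    K j * x * L l = gma K L x j l • e := by
  have h := mat2_corner he ht (K j * x * L l)
  have h1 : e * (K j * x * L l) * e = K j * x * L l := by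
    rw [← mul_assoc, ← mul_assoc, hK, mul_assoc (K j * x), hL]
  have h2 : e * (K j * x * L l) = K j * x * L l := by
    rw [← mul_assoc, ← mul_assoc, hK]
  rw [h1, h2] at h
  rw [h, gma_apply]

lemma gma_mul (hsum : ∑ m, L m * K m = 1) (x y : Matrix (Fin 2) (Fin 2) A) :
    gma K L (x * y) = gma K L x * gma K L y := by
  ext j l
  have h1 : K j * (x * y) * L l = ∑ m, (K j * x * L m) * (K m * y * L l) := by
    have : K j * (x * y) * L l = K j * x * (∑ m, L m * K m) * (y * L l) := by
      rw [hsum, mul_one]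
      simp only [mul_assoc]
    rw [this, Finset.mul_sum, Finset.sum_mul]
    refine Finset.sum_congr rfl fun m _ => ?_
    simp only [mul_assoc]
  have h2 : ∀ m, (K j * x * L m) * (K m * y * L l) =
      (gma K L x j m * gma K L y m l) • e := by
    intro m
    rw [gma_corner he ht hK hL x j m, gma_corner he ht hK hL y m l, Matrix.smul_mul,
      Matrix.mul_smul, he, smul_smul]
  rw [Matrix.mul_apply, gma_apply, h1, Matrix.trace_sum]
  refine Finset.sum_congr rfl fun m _ => ?_
  rw [h2 m, Matrix.trace_smul, ht, smul_eq_mul, mul_one]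

omit he ht hK hL in
lemma gma_trace (hsum : ∑ m, L m * K m = 1) (x : Matrix (Fin 2) (Fin 2) A) :
    (gma K L x).trace = x.trace := by
  have h1 : (gma K L x).trace = ∑ m, (L m * K m * x).trace := by
    simp only [Matrix.trace, Matrix.diag_apply, gma_apply]
    refine Finset.sum_congr rfl fun m _ => ?_
    have := Matrix.trace_mul_comm (K m * x) (L m)
    simp only [Matrix.trace, Matrix.diag_apply] at this
    rw [this, mul_assoc]
  rw [h1, ← Matrix.trace_sum, ← Finset.sum_mul, hsum, one_mul]

omit he ht hK hL in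
lemma gma_one (hδ : ∀ j l, (K j * L l).trace = if j = l then 1 else 0) :
    gma K L 1 = 1 := by
  ext j l
  rw [gma_apply, mul_one, hδ, Matrix.one_apply]

end

/-- The concrete choice: `K = (e, e y₁ (1-e))`, `L = (e, v (1-e) y₂ e)`. -/
def gmaK (e y₁ : Matrix (Fin 2) (Fin 2) A) : Fin 2 → Matrix (Fin 2) (Fin 2) A :=
  ![e, e * y₁ * (1 - e)]

def gmaL (e y₂ : Matrix (Fin 2) (Fin 2) A) (v : A) : Fin 2 → Matrix (Fin 2) (Fin 2) A :=
  ![e, v • ((1 - e) * y₂ * e)]

section

variable {e y₁ y₂ : Matrix (Fin 2) (Fin 2) A} {u v : A}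
  (he : e * e = e) (ht : e.trace = 1) (hu : (e * y₁ * (1 - e) * y₂).trace = u) (huv : v * u = 1)
include he

lemma gmaK_left (j : Fin 2) : e * gmaK e y₁ j = gmaK e y₁ j := by
  fin_cases j
  · simpa [gmaK] using he
  · simp only [gmaK, Fin.mk_one, Matrix.cons_val_one, Matrix.cons_val_fin_one]
    rw [← mul_assoc, ← mul_assoc, he]

lemma gmaL_right (l : Fin 2) : gmaL e y₂ v l * e = gmaL e y₂ v l := by
  fin_cases l
  · simpa [gmaL] using he
  · simp only [gmaL, Fin.mk_one, Matrix.cons_val_one, Matrix.cons_val_fin_one]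
    rw [Matrix.smul_mul, mul_assoc, he]

lemma mul_one_sub_self : e * (1 - e) = 0 := by
  rw [mul_sub, mul_one, he, sub_self]

lemma one_sub_mul_self : (1 - e) * e = 0 := by
  rw [sub_mul, one_mul, he, sub_self]

include ht hu huv

lemma gma_sum_eq_one : ∑ m, gmaL e y₂ v m * gmaK e y₁ m = 1 := by
  rw [Fin.sum_univ_two]
  simp only [gmaK, gmaL, Matrix.cons_val_zero, Matrix.cons_val_one, Matrix.cons_val_fin_one]
  rw [he]
  have h1 : (1 - e) * y₂ * e * (e * y₁ * (1 - e)) = (1 - e) * (y₂ * e * y₁) * (1 - e) := by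
    have : e * (e * y₁ * (1 - e)) = e * y₁ * (1 - e) := by
      rw [← mul_assoc, ← mul_assoc, he]
    rw [mul_assoc ((1 - e) * y₂), this]
    simp only [mul_assoc]
  have h2 := mat2_corner (mat2_one_sub_idem he) (mat2_one_sub_trace ht) (y₂ * e * y₁)
  have h3 : ((1 - e) * (y₂ * e * y₁)).trace = u := by
    rw [← hu]
    have := Matrix.trace_mul_comm ((1 - e) * y₂) (e * y₁)
    rw [show (1 - e) * (y₂ * e * y₁) = (1 - e) * y₂ * (e * y₁) by simp only [mul_assoc], this]
    simp only [mul_assoc]
  rw [Matrix.smul_mul, h1, h2, h3, smul_smul, huv, one_smul]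
  abel

lemma gma_delta (j l : Fin 2) :
    (gmaK e y₁ j * gmaL e y₂ v l).trace = if j = l then 1 else 0 := by
  have h0 := mul_one_sub_self he
  have h0' := one_sub_mul_self he
  fin_cases j <;> fin_cases l
  · simp only [gmaK, gmaL, Fin.zero_eta, Matrix.cons_val_zero, if_true]
    rw [he, ht]
  · simp only [gmaK, gmaL, Fin.zero_eta, Fin.mk_one, Matrix.cons_val_zero, Matrix.cons_val_one,
      Matrix.cons_val_fin_one]
    rw [Matrix.mul_smul, ← mul_assoc, ← mul_assoc, h0, zero_mul, zero_mul, smul_zero,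
      Matrix.trace_zero]
    simp
  · simp only [gmaK, gmaL, Fin.zero_eta, Fin.mk_one, Matrix.cons_val_zero, Matrix.cons_val_one,
      Matrix.cons_val_fin_one]
    rw [mul_assoc, h0', mul_zero, Matrix.trace_zero]
    simp
  · simp only [gmaK, gmaL, Fin.mk_one, Matrix.cons_val_one, Matrix.cons_val_fin_one, if_true]
    rw [Matrix.mul_smul, Matrix.trace_smul, smul_eq_mul]
    have h1 : e * y₁ * (1 - e) * ((1 - e) * y₂ * e) = e * y₁ * (1 - e) * y₂ * e := by
      have : (1 - e) * ((1 - e) * y₂ * e) = (1 - e) * y₂ * e := by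
        rw [← mul_assoc, ← mul_assoc, mat2_one_sub_idem he]
      rw [mul_assoc (e * y₁), this]
      simp only [mul_assoc]
    have h2 : (e * y₁ * (1 - e) * y₂ * e).trace = u := by
      rw [Matrix.trace_mul_comm, ← hu]
      rw [show e * (e * y₁ * (1 - e) * y₂) = e * e * y₁ * (1 - e) * y₂ by simp only [mul_assoc], he]
    rw [h1, h2, huv]

end

end Fermat.Agent.S59.Car
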