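/-
Cluster J (S59), leaf CAR (helper22): "rational" elements.
`ψ i : T → A i` jointly injective local homomorphisms, `r i : G →* M₂(A i)` representations whose
traces come from one function `tr : G → T`, and four elements `g a` such that the `r i (g a)` form
a basis of `M₂(A i)`.  The elements `(∑ a, ψ i (t a) • r i (g a))_i`, `t : Fin 2 × Fin 2 → T`, form
a subring `E` of `∏ i, M₂(A i)` containing all `(r i σ)_i`, stable under `T`, and with traces in `T`.
-/
import Mathlib
import Fermat.Agent.Lib.TraceRigidity.Core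

set_option autoImplicit false
set_option linter.style.haveILetI false
set_option linter.unusedSectionVars false

namespace Fermat.Agent.S59.Car

open Matrix IsLocalRing Fermat.Agent.TraceRigidity

/-- If the trace form vanishes against a spanning family, the matrix is zero
(over any commutative ring). -/
lemma eq_zero_of_trace_mul_eq_zero' {A : Type*} [CommRing A] {α : Type*}
    (y : α → Matrix (Fin 2) (Fin 2) A)
    (hspan : Submodule.span A (Set.range y) = ⊤)
    (x : Matrix (Fin 2) (Fin 2) A) (h : ∀ a, (x * y a).trace = 0) : x = 0 := by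
  rw [Matrix.ext_iff_trace_mul_right]
  intro z
  rw [zero_mul, Matrix.trace_zero]
  have hz : z ∈ Submodule.span A (Set.range y) := by rw [hspan]; trivial
  refine Submodule.span_induction (p := fun z _ => (x * z).trace = 0) ?_ ?_ ?_ ?_ hz
  · rintro _ ⟨a, rfl⟩
    exact h a
  · rw [mul_zero, Matrix.trace_zero]
  · intro y z _ _ hy hz
    rw [mul_add, Matrix.trace_add, hy, hz, add_zero]
  · intro c y _ hy
    rw [Matrix.mul_smul, Matrix.trace_smul, hy, smul_zero]

/-- Four matrices with invertible coordinate matrix span `M₂(A)`. -/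
lemma span_eq_top_of_isUnit_coordMat {A : Type*} [CommRing A] {G : Type*}
    (r : G → Matrix (Fin 2) (Fin 2) A) (g : Fin 2 × Fin 2 → G)
    (hdet : IsUnit (coordMat r g).det) :
    Submodule.span A (Set.range fun a => r (g a)) = ⊤ := by
  have h := (Module.Basis.is_basis_iff_det (Matrix.stdBasis A (Fin 2) (Fin 2))
    (v := fun j => r (g j))).2
    (by rw [Module.Basis.det_apply, stdBasis_toMatrix]; exact hdet)
  exact h.2

section

variable {T : Type*} [CommRing T]
  {ι : Type*} {A : ι → Type*} [∀ i, CommRing (A i)]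
  (ψ : ∀ i, T →+* A i)
  {G : Type*} [Monoid G] (r : ∀ i, G →* Matrix (Fin 2) (Fin 2) (A i))
  (g : Fin 2 × Fin 2 → G)

/-- The element of `∏ i, M₂(A i)` with coordinates `t`. -/
def ratOf (t : Fin 2 × Fin 2 → T) : ∀ i, Matrix (Fin 2) (Fin 2) (A i) :=
  fun i => ∑ a, ψ i (t a) • r i (g a)

/-- Rational elements. -/
def IsRat (x : ∀ i, Matrix (Fin 2) (Fin 2) (A i)) : Prop :=
  ∃ t : Fin 2 × Fin 2 → T, ratOf ψ r g t = x

variable {ψ r g}

lemma IsRat.zero : IsRat ψ r g 0 :=
  ⟨0, by funext i; simp [ratOf]⟩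

lemma IsRat.add {x y : ∀ i, Matrix (Fin 2) (Fin 2) (A i)} (hx : IsRat ψ r g x)
    (hy : IsRat ψ r g y) : IsRat ψ r g (x + y) := by
  obtain ⟨t, rfl⟩ := hx
  obtain ⟨t', rfl⟩ := hy
  refine ⟨t + t', ?_⟩
  funext i
  simp only [ratOf, Pi.add_apply, map_add, add_smul, Finset.sum_add_distrib]

lemma IsRat.smul {x : ∀ i, Matrix (Fin 2) (Fin 2) (A i)} (hx : IsRat ψ r g x) (s : T) :
    IsRat ψ r g (fun i => ψ i s • x i) := by
  obtain ⟨t, rfl⟩ := hx
  refine ⟨fun a => s * t a, ?_⟩
  funext i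
  simp only [ratOf, map_mul, mul_smul, Finset.smul_sum]

lemma IsRat.neg {x : ∀ i, Matrix (Fin 2) (Fin 2) (A i)} (hx : IsRat ψ r g x) :
    IsRat ψ r g (-x) := by
  have := hx.smul (-1)
  convert this using 1
  funext i
  simp

lemma IsRat.sub {x y : ∀ i, Matrix (Fin 2) (Fin 2) (A i)} (hx : IsRat ψ r g x)
    (hy : IsRat ψ r g y) : IsRat ψ r g (x - y) := by
  rw [sub_eq_add_neg]
  exact hx.add hy.neg

lemma IsRat.sum {α : Type*} (s : Finset α) {x : α → ∀ i, Matrix (Fin 2) (Fin 2) (A i)}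
    (hx : ∀ a ∈ s, IsRat ψ r g (x a)) : IsRat ψ r g (∑ a ∈ s, x a) := by
  classical
  induction s using Finset.induction_on with
  | empty => simpa using IsRat.zero
  | insert a s ha ih =>
    rw [Finset.sum_insert ha]
    exact (hx a (Finset.mem_insert_self a s)).add
      (ih fun b hb => hx b (Finset.mem_insert_of_mem hb))

/-- Traces of rational elements come from `T`. -/
lemma IsRat.exists_trace (tr : G → T) (htr : ∀ i σ, ψ i (tr σ) = (r i σ).trace)
    {x : ∀ i, Matrix (Fin 2) (Fin 2) (A i)} (hx : IsRat ψ r g x) :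
    ∃ τ : T, ∀ i, ψ i τ = (x i).trace := by
  obtain ⟨t, rfl⟩ := hx
  refine ⟨∑ a, t a * tr (g a), fun i => ?_⟩
  simp only [ratOf, map_sum, map_mul, htr, Matrix.trace_sum, Matrix.trace_smul, smul_eq_mul]

/-- The trace of a rational element against `r i σ`. -/
lemma trace_ratOf_mul (tr : G → T) (htr : ∀ i σ, ψ i (tr σ) = (r i σ).trace)
    (t : Fin 2 × Fin 2 → T) (σ : G) (i : ι) :
    (ratOf ψ r g t i * r i σ).trace = ψ i (∑ a, t a * tr (g a * σ)) := by
  simp only [ratOf, map_sum, map_mul, htr, Finset.sum_mul, Matrix.trace_sum, Matrix.smul_mul,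
    Matrix.trace_smul, smul_eq_mul]

end

section Coord

variable {T : Type*} [CommRing T] [IsLocalRing T]
  {ι : Type*} {A : ι → Type*} [∀ i, CommRing (A i)] [∀ i, IsLocalRing (A i)]
  (ψ : ∀ i, T →+* A i) (hψ : ∀ i, IsLocalHom (ψ i))
  {G : Type*} [Monoid G] (r : ∀ i, G →* Matrix (Fin 2) (Fin 2) (A i))
  (tr : G → T) (htr : ∀ i σ, ψ i (tr σ) = (r i σ).trace)
  (g : Fin 2 × Fin 2 → G)

/-- The Gram matrix over `T`. -/
def gramT : Matrix (Fin 2 × Fin 2) (Fin 2 × Fin 2) T :=
  Matrix.of fun a b => tr (g a * g b)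

include htr in
lemma map_gramT (i : ι) : (ψ i).mapMatrix (gramT tr g) = gramMat (r i) g := by
  ext a b
  simp only [gramT, gramMat, RingHom.mapMatrix_apply, Matrix.map_apply, Matrix.of_apply, htr,
    map_mul]

include hψ htr in
lemma isUnit_det_gramT (i₀ : ι) (hg : IsUnit (coordMat (r i₀) g).det) :
    IsUnit (gramT tr g).det := by
  have h1 : IsUnit (gramMat (r i₀) g).det := (isUnit_det_gramMat_iff _ g).2 hg
  rw [← map_gramT ψ r tr htr g i₀, ← RingHom.map_det] at h1
  haveI := hψ i₀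
  exact isUnit_of_map_unit (ψ i₀) _ h1

include hψ htr in
lemma isUnit_det_coordMat_all (i₀ : ι) (hg : IsUnit (coordMat (r i₀) g).det) (i : ι) :
    IsUnit (coordMat (r i) g).det := by
  rw [← isUnit_det_gramMat_iff, ← map_gramT ψ r tr htr g i, ← RingHom.map_det]
  exact (isUnit_det_gramT ψ hψ r tr htr g i₀ hg).map (ψ i)

include hψ htr in
/-- Every `(r i σ)_i` is rational. -/
theorem isRat_rep (i₀ : ι) (hg : IsUnit (coordMat (r i₀) g).det) (σ : G) :
    IsRat ψ r g (fun i => r i σ) := by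
  classical
  have hΓ := isUnit_det_gramT ψ hψ r tr htr g i₀ hg
  set Γ := gramT tr g with hΓdef
  set v : Fin 2 × Fin 2 → T := fun b => tr (σ * g b) with hv
  set c : Fin 2 × Fin 2 → T := Matrix.vecMul v Γ⁻¹ with hc
  have hcΓ : Matrix.vecMul c Γ = v := by
    rw [hc, Matrix.vecMul_vecMul, Matrix.nonsing_inv_mul _ hΓ, Matrix.vecMul_one]
  refine ⟨c, ?_⟩
  funext i
  have hspan := span_eq_top_of_isUnit_coordMat (r i) g
    (isUnit_det_coordMat_all ψ hψ r tr htr g i₀ hg i)
  rw [← sub_eq_zero]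
  refine eq_zero_of_trace_mul_eq_zero' (fun a => r i (g a)) hspan _ fun b => ?_
  rw [sub_mul, Matrix.trace_sub, sub_eq_zero]
  have h1 : (ratOf ψ r g c i * r i (g b)).trace = ψ i (Matrix.vecMul c Γ b) := by
    simp only [ratOf, Finset.sum_mul, Matrix.trace_sum, Matrix.smul_mul, Matrix.trace_smul,
      smul_eq_mul, Matrix.vecMul, dotProduct, map_sum, map_mul, hΓdef, gramT, Matrix.of_apply,
      htr]
  rw [h1, hcΓ, hv, htr, map_mul]

include hψ htr in
lemma isRat_one (i₀ : ι) (hg : IsUnit (coordMat (r i₀) g).det) :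
    IsRat ψ r g 1 := by
  have := isRat_rep ψ hψ r tr htr g i₀ hg 1
  convert this using 1
  funext i
  simp

include hψ htr in
lemma IsRat.mul (i₀ : ι) (hg : IsUnit (coordMat (r i₀) g).det)
    {x y : ∀ i, Matrix (Fin 2) (Fin 2) (A i)} (hx : IsRat ψ r g x)
    (hy : IsRat ψ r g y) : IsRat ψ r g (x * y) := by
  classical
  obtain ⟨t, rfl⟩ := hx
  obtain ⟨t', rfl⟩ := hy
  have h : ratOf ψ r g t * ratOf ψ r g t' =
      ∑ a, ∑ b, (fun i => ψ i (t a * t' b) • r i (g a * g b)) := by
    funext i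
    simp only [Pi.mul_apply, ratOf, Finset.sum_apply, Finset.sum_mul, Finset.mul_sum,
      Matrix.smul_mul, Matrix.mul_smul, smul_smul, map_mul]
    rw [Finset.sum_comm]
    refine Finset.sum_congr rfl fun a _ => Finset.sum_congr rfl fun b _ => ?_
    rw [mul_comm]
  rw [h]
  refine IsRat.sum _ fun a _ => IsRat.sum _ fun b _ => ?_
  exact (isRat_rep ψ hψ r tr htr g i₀ hg (g a * g b)).smul (t a * t' b)

end Coord

end Fermat.Agent.S59.Car
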