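/-
Cluster J (S59), leaf CAR (helper22): the residual step.  A finite "form" of `M₂(k)` over a finite
field `k₀ ⊆ k` (the `k₀`-span of a representation whose matrices `r (g a)` form a `k`-basis)
contains a matrix of trace one and determinant zero (little Wedderburn).
-/
import Mathlib
import Fermat.Agent.Lib.TraceRigidity.Core
import Fermat.Agent.S59.Datum.Car.Mat2

set_option autoImplicit false
set_option linter.style.haveILetI false

namespace Fermat.Agent.S59.Car

open Matrix Fermat.Agent.TraceRigidity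

section Basis

variable {k : Type*} [Field k] {G : Type*}

/-- Four matrices with invertible coordinate matrix span `M₂(k)`. -/
lemma span_eq_top_of_coordMat (r : G → Matrix (Fin 2) (Fin 2) k) (g : Fin 2 × Fin 2 → G)
    (hdet : (coordMat r g).det ≠ 0) :
    Submodule.span k (Set.range fun a => r (g a)) = ⊤ := by
  have h := (Module.Basis.is_basis_iff_det (Matrix.stdBasis k (Fin 2) (Fin 2))
    (v := fun j => r (g j))).2
    (by rw [Module.Basis.det_apply, stdBasis_toMatrix]; exact isUnit_iff_ne_zero.mpr hdet)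
  exact h.2

/-- If the trace form vanishes against a spanning family, the matrix is zero. -/
lemma eq_zero_of_trace_mul_eq_zero (r : G → Matrix (Fin 2) (Fin 2) k) (g : Fin 2 × Fin 2 → G)
    (hspan : Submodule.span k (Set.range fun a => r (g a)) = ⊤)
    (x : Matrix (Fin 2) (Fin 2) k) (h : ∀ a, (x * r (g a)).trace = 0) : x = 0 := by
  rw [Matrix.ext_iff_trace_mul_right]
  intro y
  rw [zero_mul, Matrix.trace_zero]
  have hy : y ∈ Submodule.span k (Set.range fun a => r (g a)) := by rw [hspan]; trivial
  refine Submodule.span_induction (p := fun y _ => (x * y).trace = 0) ?_ ?_ ?_ ?_ hy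
  · rintro _ ⟨a, rfl⟩
    exact h a
  · rw [mul_zero, Matrix.trace_zero]
  · intro y z _ _ hy hz
    rw [mul_add, Matrix.trace_add, hy, hz, add_zero]
  · intro c y _ hy
    rw [Matrix.mul_smul, Matrix.trace_smul, hy, smul_zero]

/-- For a matrix `e` of trace one, some `tr (e * r (g a) * (1 - e) * r (g b))` is nonzero. -/
theorem exists_corner_ne_zero (r : G → Matrix (Fin 2) (Fin 2) k) (g : Fin 2 × Fin 2 → G)
    (hspan : Submodule.span k (Set.range fun a => r (g a)) = ⊤)
    (e : Matrix (Fin 2) (Fin 2) k) (ht : e.trace = 1) :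
    ∃ a b, (e * r (g a) * (1 - e) * r (g b)).trace ≠ 0 := by
  by_contra hcon
  simp only [not_exists, not_not] at hcon
  -- `e * y * (1 - e) = 0` for all `y`
  have h1 : ∀ a, e * r (g a) * (1 - e) = 0 :=
    fun a => eq_zero_of_trace_mul_eq_zero r g hspan _ (hcon a)
  have h2 : ∀ y : Matrix (Fin 2) (Fin 2) k, e * y * (1 - e) = 0 := by
    intro y
    have hy : y ∈ Submodule.span k (Set.range fun a => r (g a)) := by rw [hspan]; trivial
    refine Submodule.span_induction (p := fun y _ => e * y * (1 - e) = 0) ?_ ?_ ?_ ?_ hy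
    · rintro _ ⟨a, rfl⟩
      exact h1 a
    · rw [mul_zero, zero_mul]
    · intro y z _ _ hy hz
      rw [mul_add, add_mul, hy, hz, add_zero]
    · intro c y _ hy
      rw [Matrix.mul_smul, Matrix.smul_mul, hy, smul_zero]
  -- entries: `e j p * (1 - e) l q = 0`
  have h3 : ∀ p l : Fin 2, e p p * (1 - e) l l = 0 := by
    intro p l
    have := congrFun (congrFun (h2 (Matrix.single p l (1 : k))) p) l
    simpa [Matrix.mul_apply, Matrix.single, Fin.sum_univ_two, ite_and] using this
  have h4 : e.trace * (1 - e : Matrix (Fin 2) (Fin 2) k).trace = 0 := by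
    simp only [Matrix.trace, Matrix.diag_apply, Fin.sum_univ_two]
    rw [add_mul, mul_add, mul_add, h3, h3, h3, h3]
    simp
  rw [mat2_one_sub_trace ht, ht, one_mul] at h4
  exact one_ne_zero h4

/-- `M₂(k)` is not commutative. -/
lemma mat2_not_comm : ∃ x y : Matrix (Fin 2) (Fin 2) k, x * y ≠ y * x := by
  refine ⟨!![0, 1; 0, 0], !![0, 0; 1, 0], fun h => ?_⟩
  have := congrFun (congrFun h 0) 0
  simp [Matrix.mul_apply, Fin.sum_univ_two] at this

end Basis

section Wedderburn

variable {k₀ k : Type*} [Field k₀] [Finite k₀] [Field k] [Algebra k₀ k]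
  {G : Type*} [Monoid G]

/-- **Residual step.** -/
theorem exists_trace_one_det_zero (r : G →* Matrix (Fin 2) (Fin 2) k) (g : Fin 2 × Fin 2 → G)
    (hdet : (coordMat r g).det ≠ 0)
    (hcoord : ∀ σ, r σ ∈ Submodule.span k₀ (Set.range fun a => r (g a)))
    (htr : ∀ a, (r (g a)).trace ∈ Set.range (algebraMap k₀ k)) :
    ∃ s : Fin 2 × Fin 2 → k₀,
      (∑ a, s a • r (g a)).trace = 1 ∧ (∑ a, s a • r (g a)).det = 0 := by
  classical
  have hspan : Submodule.span k (Set.range fun a => r (g a)) = ⊤ :=
    span_eq_top_of_coordMat r g hdet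
  have hsm : ∀ (c : k₀) (x : Matrix (Fin 2) (Fin 2) k), c • x = (algebraMap k₀ k c) • x :=
    fun c x => (algebraMap_smul k c x).symm
  -- the `k₀`-form `B`
  set B : Subalgebra k₀ (Matrix (Fin 2) (Fin 2) k) := Algebra.adjoin k₀ (Set.range r) with hB
  have hBspan : Subalgebra.toSubmodule B = Submodule.span k₀ (Set.range r) := by
    rw [hB, Algebra.adjoin_eq_span]
    congr 1
    rw [← MonoidHom.coe_mrange, Submonoid.closure_eq]
  have hBspan' : Subalgebra.toSubmodule B = Submodule.span k₀ (Set.range fun a => r (g a)) := by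
    rw [hBspan]
    apply le_antisymm
    · rw [Submodule.span_le]
      rintro _ ⟨σ, rfl⟩
      exact hcoord σ
    · apply Submodule.span_mono
      rintro _ ⟨a, rfl⟩
      exact ⟨g a, rfl⟩
  have hBmem : ∀ x : Matrix (Fin 2) (Fin 2) k,
      x ∈ B ↔ x ∈ Submodule.span k₀ (Set.range fun a => r (g a)) := by
    intro x
    rw [← hBspan']
    rfl
  have hgB : ∀ a, r (g a) ∈ B := fun a => (hBmem _).2 (Submodule.subset_span ⟨a, rfl⟩)
  haveI hBfin : Finite B := by
    haveI : Module.Finite k₀ (Subalgebra.toSubmodule B) := by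
      rw [Module.Finite.iff_fg, hBspan']
      exact Submodule.fg_span (Set.finite_range _)
    exact Module.finite_of_finite k₀ (M := Subalgebra.toSubmodule B)
  -- traces of elements of `B` come from `k₀`
  have htrB : ∀ x ∈ B, x.trace ∈ Set.range (algebraMap k₀ k) := by
    intro x hx
    rw [hBmem] at hx
    refine Submodule.span_induction (p := fun x _ => x.trace ∈ Set.range (algebraMap k₀ k))
      ?_ ?_ ?_ ?_ hx
    · rintro _ ⟨a, rfl⟩
      exact htr a
    · exact ⟨0, by rw [map_zero, Matrix.trace_zero]⟩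
    · rintro x y _ _ ⟨a, ha⟩ ⟨b, hb⟩
      exact ⟨a + b, by rw [map_add, ha, hb, Matrix.trace_add]⟩
    · rintro c x _ ⟨a, ha⟩
      refine ⟨c * a, ?_⟩
      rw [map_mul, ha, hsm, Matrix.trace_smul, smul_eq_mul]
  -- Step 1: a nonzero singular element of `B`
  have hsing : ∃ x ∈ B, x ≠ 0 ∧ x.det = 0 := by
    by_contra hcon
    simp only [not_exists, not_and] at hcon
    have hinv : ∀ x ∈ B, x ≠ 0 → x.det ≠ 0 := fun x hx hx0 => hcon x hx hx0
    haveI : NoZeroDivisors B := by
      refine ⟨fun {x y} hxy => ?_⟩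
      by_cases hx : x = 0
      · exact Or.inl hx
      · right
        have hx' : (x : Matrix (Fin 2) (Fin 2) k) ≠ 0 := fun h => hx (Subtype.ext h)
        have hdx := hinv x x.2 hx'
        have hxy' : (x : Matrix (Fin 2) (Fin 2) k) * (y : Matrix (Fin 2) (Fin 2) k) = 0 := by
          have := congrArg (Subtype.val) hxy
          simpa using this
        have hu : IsUnit (x : Matrix (Fin 2) (Fin 2) k) :=
          (Matrix.isUnit_iff_isUnit_det _).2 (isUnit_iff_ne_zero.mpr hdx)
        have : (y : Matrix (Fin 2) (Fin 2) k) = 0 := by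
          have h1 := hu.mul_right_eq_zero.mp hxy'
          exact h1
        exact Subtype.ext this
    haveI : Nontrivial B := ⟨⟨0, 1, fun h => by
      have := congrArg (Subtype.val) h
      simp at this⟩⟩
    haveI : IsDomain B := NoZeroDivisors.to_isDomain B
    have hfield := Finite.isDomain_to_isField B
    have hcomm : ∀ a b, r (g a) * r (g b) = r (g b) * r (g a) := by
      intro a b
      have := hfield.mul_comm ⟨r (g a), hgB a⟩ ⟨r (g b), hgB b⟩
      exact congrArg Subtype.val this
    obtain ⟨x, y, hxy⟩ := mat2_not_comm (k := k)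
    apply hxy
    have hx : x ∈ Submodule.span k (Set.range fun a => r (g a)) := by rw [hspan]; trivial
    have hy : y ∈ Submodule.span k (Set.range fun a => r (g a)) := by rw [hspan]; trivial
    have hstep : ∀ a, ∀ y ∈ Submodule.span k (Set.range fun a => r (g a)),
        r (g a) * y = y * r (g a) := by
      intro a y hy
      refine Submodule.span_induction (p := fun y _ => r (g a) * y = y * r (g a))
        ?_ ?_ ?_ ?_ hy
      · rintro _ ⟨b, rfl⟩
        exact hcomm a b
      · rw [mul_zero, zero_mul]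
      · intro y z _ _ hy hz
        rw [mul_add, add_mul, hy, hz]
      · intro c y _ hy
        rw [Matrix.mul_smul, Matrix.smul_mul, hy]
    refine Submodule.span_induction (p := fun x _ => x * y = y * x) ?_ ?_ ?_ ?_ hx
    · rintro _ ⟨a, rfl⟩
      exact hstep a y hy
    · rw [mul_zero, zero_mul]
    · intro x z _ _ hx hz
      rw [mul_add, add_mul, hx, hz]
    · intro c x _ hx
      rw [Matrix.mul_smul, Matrix.smul_mul, hx]
  -- Step 2: normalise the trace
  have hnorm : ∃ x ∈ B, x.trace ≠ 0 ∧ x.det = 0 := by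
    obtain ⟨x, hxB, hx0, hxd⟩ := hsing
    by_cases hxt : x.trace = 0
    · have : ∃ a, (x * r (g a)).trace ≠ 0 := by
        by_contra hcon
        simp only [not_exists, not_not] at hcon
        exact hx0 (eq_zero_of_trace_mul_eq_zero r g hspan x hcon)
      obtain ⟨a, ha⟩ := this
      exact ⟨x * r (g a), B.mul_mem hxB (hgB a), ha, by rw [Matrix.det_mul, hxd, zero_mul]⟩
    · exact ⟨x, hxB, hxt, hxd⟩
  obtain ⟨x, hxB, hxt, hxd⟩ := hnorm
  obtain ⟨c, hc⟩ := htrB x hxB
  have hc0 : c ≠ 0 := by
    rintro rfl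
    rw [map_zero] at hc
    exact hxt hc.symm
  have hx'B : c⁻¹ • x ∈ B := B.smul_mem hxB c⁻¹
  have hx't : (c⁻¹ • x).trace = 1 := by
    rw [hsm, Matrix.trace_smul, smul_eq_mul, ← hc, ← map_mul, inv_mul_cancel₀ hc0, map_one]
  have hx'd : (c⁻¹ • x).det = 0 := by
    rw [hsm, Matrix.det_smul, hxd, mul_zero]
  rw [hBmem, Submodule.mem_span_range_iff_exists_fun] at hx'B
  obtain ⟨s, hs⟩ := hx'B
  exact ⟨s, by rw [hs]; exact hx't, by rw [hs]; exact hx'd⟩

end Wedderburn

end Fermat.Agent.S59.Car
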