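/-
Cluster J (S59), leaf CAR (helper22): Carayol's lemma, matrix form.
Representations `r i : G →* M₂(A i)` over local `T`-algebras (`ψ i : T → A i` local, jointly
injective, `T` complete local with finite residue field) whose traces come from `tr : G → T`,
one of them with four matrices `r i₀ (g a)` forming a basis: there is `F : G →* M₂(T)` with
`tr (F σ) = tr σ`, and the entries of `F σ` are fixed `T`-linear combinations of the traces
`tr (g a * σ)`.
-/
import Mathlib
import Fermat.Agent.Lib.TraceRigidity.Core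
import Fermat.Agent.S59.Datum.Car.Mat2
import Fermat.Agent.S59.Datum.Car.Residual
import Fermat.Agent.S59.Datum.Car.Rational

set_option autoImplicit false
set_option linter.style.haveILetI false
set_option linter.unusedSectionVars false

namespace Fermat.Agent.S59.Car

open Matrix IsLocalRing Polynomial Fermat.Agent.TraceRigidity

section

variable {T : Type*} [CommRing T] [IsLocalRing T]
  {ι : Type*} {A : ι → Type*} [∀ i, CommRing (A i)] [∀ i, IsLocalRing (A i)]
  (ψ : ∀ i, T →+* A i) (hψ : ∀ i, IsLocalHom (ψ i))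
  {G : Type*} [Monoid G] (r : ∀ i, G →* Matrix (Fin 2) (Fin 2) (A i))
  (tr : G → T) (htr : ∀ i σ, ψ i (tr σ) = (r i σ).trace)
  (g : Fin 2 × Fin 2 → G) (i₀ : ι) (hg : IsUnit (coordMat (r i₀) g).det)

/-- The residual representation at `i₀`. -/
noncomputable def rbar : G →* Matrix (Fin 2) (Fin 2) (ResidueField (A i₀)) :=
  ((residue (A i₀)).mapMatrix (m := Fin 2)).toMonoidHom.comp (r i₀)

lemma rbar_apply (σ : G) : rbar r i₀ σ = (r i₀ σ).map (residue (A i₀)) := rfl

/-- Reduction of a rational element at `i₀`. -/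
lemma map_ratOf (t : Fin 2 × Fin 2 → T) :
    (ratOf ψ r g t i₀).map (residue (A i₀)) =
      ∑ a, residue (A i₀) (ψ i₀ (t a)) • rbar r i₀ (g a) := by
  have h : (ratOf ψ r g t i₀).map (residue (A i₀)) =
      (residue (A i₀)).mapMatrix (ratOf ψ r g t i₀) := rfl
  rw [h, ratOf, map_sum]
  refine Finset.sum_congr rfl fun a _ => ?_
  rw [RingHom.mapMatrix_apply, Matrix.map_smul' _ _ _ (map_mul _)]
  rfl

include hψ htr hg in
/-- **Step A.** A rational element whose reduction at `i₀` has trace one and determinant zero. -/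
theorem exists_rat_trace_one_det_zero [Finite (ResidueField T)] :
    ∃ x : ∀ i, Matrix (Fin 2) (Fin 2) (A i), IsRat ψ r g x ∧
      residue (A i₀) (x i₀).trace = 1 ∧ residue (A i₀) (x i₀).det = 0 := by
  classical
  haveI := hψ i₀
  letI : Algebra (ResidueField T) (ResidueField (A i₀)) := (ResidueField.map (ψ i₀)).toAlgebra
  have halg : ∀ s : T, algebraMap (ResidueField T) (ResidueField (A i₀)) (residue T s) =
      residue (A i₀) (ψ i₀ s) := fun s => ResidueField.map_residue (ψ i₀) s
  have hsm : ∀ (s : T) (M : Matrix (Fin 2) (Fin 2) (ResidueField (A i₀))),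
      residue (A i₀) (ψ i₀ s) • M = residue T s • M := by
    intro s M
    rw [← halg, algebraMap_smul]
  have hdet : (coordMat (rbar r i₀) g).det ≠ 0 := by
    have h1 : coordMat (rbar r i₀) g = (residue (A i₀)).mapMatrix (coordMat (r i₀) g) := by
      ext ab j
      rfl
    rw [h1, ← RingHom.map_det]
    exact (hg.map (residue (A i₀))).ne_zero
  have hcoord : ∀ σ, rbar r i₀ σ ∈
      Submodule.span (ResidueField T) (Set.range fun a => rbar r i₀ (g a)) := by
    intro σ
    obtain ⟨c, hc⟩ := isRat_rep ψ hψ r tr htr g i₀ hg σ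
    have h1 : rbar r i₀ σ = (ratOf ψ r g c i₀).map (residue (A i₀)) := by
      rw [hc]
      rfl
    rw [h1, map_ratOf]
    refine Submodule.sum_mem _ fun a _ => ?_
    rw [hsm]
    exact Submodule.smul_mem _ _ (Submodule.subset_span ⟨a, rfl⟩)
  have htr' : ∀ a, (rbar r i₀ (g a)).trace ∈
      Set.range (algebraMap (ResidueField T) (ResidueField (A i₀))) := by
    intro a
    refine ⟨residue T (tr (g a)), ?_⟩
    rw [halg, htr, rbar_apply]
    simp only [Matrix.trace, Matrix.diag_apply, Matrix.map_apply, map_sum]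
  obtain ⟨s, hs1, hs0⟩ := exists_trace_one_det_zero (rbar r i₀) g hdet hcoord htr'
  have hlift : ∀ a, ∃ t : T, residue T t = s a := fun a => residue_surjective (s a)
  choose tx htx using hlift
  refine ⟨ratOf ψ r g tx, ⟨tx, rfl⟩, ?_, ?_⟩
  · have h1 : residue (A i₀) (ratOf ψ r g tx i₀).trace =
        ((ratOf ψ r g tx i₀).map (residue (A i₀))).trace := by
      simp only [Matrix.trace, Matrix.diag_apply, Matrix.map_apply, map_sum]
    rw [h1, map_ratOf, ← hs1]
    congr 1
    refine Finset.sum_congr rfl fun a _ => ?_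
    rw [hsm, htx]
  · have h1 : residue (A i₀) (ratOf ψ r g tx i₀).det =
        ((ratOf ψ r g tx i₀).map (residue (A i₀))).det := by
      rw [RingHom.map_det]
      rfl
    rw [h1, map_ratOf, ← hs0]
    congr 1
    refine Finset.sum_congr rfl fun a _ => ?_
    rw [hsm, htx]

include hψ htr hg in
/-- **Step B.** A rational idempotent of trace one (Hensel). -/
theorem exists_rat_idem [IsAdicComplete (maximalIdeal T) T] [Finite (ResidueField T)] :
    ∃ e : ∀ i, Matrix (Fin 2) (Fin 2) (A i), IsRat ψ r g e ∧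
      (∀ i, e i * e i = e i) ∧ ∀ i, (e i).trace = 1 := by
  classical
  haveI := hψ i₀
  obtain ⟨x, hxrat, hx1, hx0⟩ := exists_rat_trace_one_det_zero ψ hψ r tr htr g i₀ hg
  have hmul : ∀ {a b : ∀ i, Matrix (Fin 2) (Fin 2) (A i)}, IsRat ψ r g a → IsRat ψ r g b →
      IsRat ψ r g (a * b) := fun ha hb => IsRat.mul ψ hψ r tr htr g i₀ hg ha hb
  obtain ⟨t₀, ht₀⟩ := hxrat.exists_trace tr htr
  obtain ⟨τ₂, hτ₂⟩ := (hmul hxrat hxrat).exists_trace tr htr
  obtain ⟨τ₃, hτ₃⟩ := (hmul (hmul hxrat hxrat) hxrat).exists_trace tr htr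
  -- `t₀` is a unit
  have ht₀u : IsUnit t₀ := by
    by_contra hnu
    have h1 : ψ i₀ t₀ ∈ maximalIdeal (A i₀) :=
      map_nonunit (ψ i₀) t₀ ((mem_maximalIdeal _).2 hnu)
    have h2 : residue (A i₀) (ψ i₀ t₀) = 0 := (residue_eq_zero_iff _).2 h1
    rw [ht₀, hx1] at h2
    exact one_ne_zero h2
  obtain ⟨u₀, hu₀⟩ := ht₀u
  set n₀ : T := ↑u₀⁻¹ * (t₀ * τ₂ - τ₃) with hn₀def
  have hn₀t : n₀ * t₀ = t₀ * τ₂ - τ₃ := by
    rw [hn₀def, mul_comm, ← mul_assoc, ← hu₀, Units.mul_inv, one_mul]
  have hn₀ : ∀ i, ψ i n₀ = (x i).det := by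
    intro i
    have h1 : ψ i n₀ * ψ i t₀ = (x i).det * ψ i t₀ := by
      rw [← map_mul, hn₀t, map_sub, map_mul, ht₀, hτ₂, hτ₃]
      exact (mat2_det_mul_trace (x i)).symm
    have hu : IsUnit (ψ i t₀) := by
      rw [← hu₀]
      exact (u₀.isUnit).map (ψ i)
    exact hu.mul_left_inj.mp h1
  have hn₀m : n₀ ∈ maximalIdeal T := by
    by_contra hnm
    have hu : IsUnit n₀ := by
      by_contra h
      exact hnm ((mem_maximalIdeal _).2 h)
    have h1 : IsUnit (ψ i₀ n₀) := hu.map (ψ i₀)
    rw [hn₀ i₀] at h1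
    exact ((residue_ne_zero_iff_isUnit _).2 h1) hx0
  -- Hensel
  set f : T[X] := X ^ 2 + (C (-t₀) * X + C n₀) with hf
  have hmonic : f.Monic := by
    apply monic_X_pow_add
    exact lt_of_le_of_lt (degree_linear_le) (by norm_num)
  have hev : f.eval 0 = n₀ := by simp [hf]
  have hder : f.derivative.eval 0 = -t₀ := by simp [hf]
  obtain ⟨β, hβroot, hβm⟩ := HenselianRing.is_henselian (R := T) (I := maximalIdeal T) f hmonic 0
    (by rw [hev]; exact hn₀m)
    (by
      rw [hder, ← hu₀]
      exact (u₀.isUnit.neg).map _)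
  rw [sub_zero] at hβm
  have hβ : β * β - t₀ * β + n₀ = 0 := by
    have := hβroot
    simp only [IsRoot.def, hf, eval_add, eval_pow, eval_X, eval_mul, eval_C] at this
    linear_combination this
  -- the unit `d = t₀ - 2 β`
  have hdu : IsUnit (t₀ - 2 * β) := by
    by_contra hnu
    have h1 : t₀ - 2 * β ∈ maximalIdeal T := (mem_maximalIdeal _).2 hnu
    have h2 : t₀ ∈ maximalIdeal T := by
      have := (maximalIdeal T).add_mem h1 ((maximalIdeal T).mul_mem_left 2 hβm)
      rwa [sub_add_cancel] at this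
    exact ((mem_maximalIdeal _).1 h2) (hu₀ ▸ u₀.isUnit)
  obtain ⟨ud, hud⟩ := hdu
  set w : T := ↑ud⁻¹ with hw
  have hwd : w * (t₀ - 2 * β) = 1 := by
    rw [hw, ← hud, Units.inv_mul]
  have h1rat : IsRat ψ r g 1 := isRat_one ψ hψ r tr htr g i₀ hg
  have herat := (hxrat.sub (h1rat.smul β)).smul w
  refine ⟨_, herat, fun i => ?_, fun i => ?_⟩
  · have hroot : ψ i β * ψ i β - (x i).trace * ψ i β + (x i).det = 0 := by
      rw [← ht₀, ← hn₀, ← map_mul, ← map_mul, ← map_sub, ← map_add, hβ, map_zero]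
    have hsq := mat2_sub_smul_sq (x i) (ψ i β) hroot
    have hwd' : ψ i w * ((x i).trace - 2 * ψ i β) = 1 := by
      rw [← ht₀, ← map_ofNat (ψ i) 2, ← map_mul, ← map_sub, ← map_mul, hwd, map_one]
    show ψ i w • (x i - ψ i β • (1 : Matrix (Fin 2) (Fin 2) (A i))) *
        (ψ i w • (x i - ψ i β • (1 : Matrix (Fin 2) (Fin 2) (A i)))) =
      ψ i w • (x i - ψ i β • (1 : Matrix (Fin 2) (Fin 2) (A i)))
    rw [Matrix.smul_mul, Matrix.mul_smul, hsq, smul_smul, smul_smul, mul_assoc, hwd', mul_one]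
  · show (ψ i w • (x i - ψ i β • (1 : Matrix (Fin 2) (Fin 2) (A i)))).trace = 1
    rw [Matrix.trace_smul, Matrix.trace_sub, Matrix.trace_smul, Matrix.trace_one,
      Fintype.card_fin, smul_eq_mul, smul_eq_mul, ← ht₀]
    have : ψ i w * (ψ i t₀ - ψ i β * ((2 : ℕ) : A i)) = ψ i (w * (t₀ - 2 * β)) := by
      rw [map_mul, map_sub, map_mul, map_ofNat]
      push_cast
      ring
    rw [this, hwd, map_one]

lemma residue_trace {B : Type*} [CommRing B] [IsLocalRing B] (M : Matrix (Fin 2) (Fin 2) B) :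
    residue B M.trace = (M.map (residue B)).trace := by
  simp only [Matrix.trace, Matrix.diag_apply, Matrix.map_apply, map_sum]

include hψ htr hg in
/-- **Carayol's lemma, matrix form.** -/
theorem exists_rep_of_traces [IsAdicComplete (maximalIdeal T) T] [Finite (ResidueField T)]
    (hinj : ∀ t : T, (∀ i, ψ i t = 0) → t = 0) :
    ∃ (F : G →* Matrix (Fin 2) (Fin 2) T) (coef : Fin 2 → Fin 2 → Fin 2 × Fin 2 → T),
      (∀ σ, (F σ).trace = tr σ) ∧ ∀ σ j l, F σ j l = ∑ c, coef j l c * tr (g c * σ) := by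
  classical
  haveI := hψ i₀
  obtain ⟨e, herat, he, het⟩ := exists_rat_idem ψ hψ r tr htr g i₀ hg
  have hmul : ∀ {a b : ∀ i, Matrix (Fin 2) (Fin 2) (A i)}, IsRat ψ r g a → IsRat ψ r g b →
      IsRat ψ r g (a * b) := fun ha hb => IsRat.mul ψ hψ r tr htr g i₀ hg ha hb
  have hrep : ∀ σ, IsRat ψ r g (fun i => r i σ) := isRat_rep ψ hψ r tr htr g i₀ hg
  have h1rat : IsRat ψ r g 1 := isRat_one ψ hψ r tr htr g i₀ hg
  -- Step C: the unit `u`
  have hspan : Submodule.span (ResidueField (A i₀)) (Set.range fun a => rbar r i₀ (g a)) = ⊤ := by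
    apply span_eq_top_of_isUnit_coordMat (rbar r i₀) g
    have h1 : coordMat (rbar r i₀) g = (residue (A i₀)).mapMatrix (coordMat (r i₀) g) := by
      ext ab j
      rfl
    rw [h1, ← RingHom.map_det]
    exact hg.map (residue (A i₀))
  have hebar : ((e i₀).map (residue (A i₀))).trace = 1 := by
    rw [← residue_trace, het, map_one]
  obtain ⟨a, b, hab⟩ := exists_corner_ne_zero (rbar r i₀) g hspan _ hebar
  have hzrat : IsRat ψ r g (e * (fun i => r i (g a)) * (1 - e) * (fun i => r i (g b))) :=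
    hmul (hmul (hmul herat (hrep _)) (h1rat.sub herat)) (hrep _)
  obtain ⟨u, hu⟩ := hzrat.exists_trace tr htr
  have hu' : ∀ i, (e i * r i (g a) * (1 - e i) * r i (g b)).trace = ψ i u :=
    fun i => (hu i).symm
  have huu : IsUnit u := by
    have h1 : residue (A i₀) (ψ i₀ u) ≠ 0 := by
      rw [← hu', residue_trace]
      have h2 : (e i₀ * r i₀ (g a) * (1 - e i₀) * r i₀ (g b)).map (residue (A i₀)) =
          (e i₀).map (residue (A i₀)) * rbar r i₀ (g a) * (1 - (e i₀).map (residue (A i₀))) *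
            rbar r i₀ (g b) := by
        have h3 : ∀ M : Matrix (Fin 2) (Fin 2) (A i₀),
            M.map (residue (A i₀)) = (residue (A i₀)).mapMatrix M := fun M => rfl
        rw [h3, map_mul, map_mul, map_mul, map_sub, map_one]
        rfl
      rw [h2]
      exact hab
    have h2 : IsUnit (ψ i₀ u) := (residue_ne_zero_iff_isUnit _).1 h1
    exact isUnit_of_map_unit (ψ i₀) u h2
  obtain ⟨uu, huu'⟩ := huu
  set v : T := ↑uu⁻¹ with hv
  have hvu : v * u = 1 := by rw [hv, ← huu', Units.inv_mul]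
  have hvu' : ∀ i, ψ i v * ψ i u = 1 := fun i => by rw [← map_mul, hvu, map_one]
  -- Step D
  set K : Fin 2 → ∀ i, Matrix (Fin 2) (Fin 2) (A i) :=
    fun j i => gmaK (e i) (r i (g a)) j with hK
  set L : Fin 2 → ∀ i, Matrix (Fin 2) (Fin 2) (A i) :=
    fun l i => gmaL (e i) (r i (g b)) (ψ i v) l with hL
  have hKrat : ∀ j, IsRat ψ r g (K j) := by
    intro j
    fin_cases j
    · exact herat
    · exact hmul (hmul herat (hrep (g a))) (h1rat.sub herat)
  have hLrat : ∀ l, IsRat ψ r g (L l) := by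
    intro l
    fin_cases l
    · exact herat
    · exact (hmul (hmul (h1rat.sub herat) (hrep (g b))) herat).smul v
  have hW : ∀ j l, IsRat ψ r g (L l * K j) := fun j l => hmul (hLrat l) (hKrat j)
  choose tW htW using hW
  set F₀ : G → Matrix (Fin 2) (Fin 2) T :=
    fun σ => Matrix.of fun j l => ∑ c, tW j l c * tr (g c * σ) with hF₀
  have hF : ∀ i σ, (ψ i).mapMatrix (F₀ σ) =
      gma (gmaK (e i) (r i (g a))) (gmaL (e i) (r i (g b)) (ψ i v)) (r i σ) := by
    intro i σ
    ext j l
    rw [RingHom.mapMatrix_apply, Matrix.map_apply, gma_apply]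
    show ψ i (∑ c, tW j l c * tr (g c * σ)) = _
    rw [← trace_ratOf_mul tr htr, htW]
    show ((L l i * K j i) * r i σ).trace = (K j i * r i σ * L l i).trace
    rw [mul_assoc, Matrix.trace_mul_comm]
  have hsum : ∀ i, ∑ m, gmaL (e i) (r i (g b)) (ψ i v) m * gmaK (e i) (r i (g a)) m = 1 :=
    fun i => gma_sum_eq_one (he i) (het i) (hu' i) (hvu' i)
  have hδ : ∀ i j l, (gmaK (e i) (r i (g a)) j * gmaL (e i) (r i (g b)) (ψ i v) l).trace =
      if j = l then 1 else 0 := fun i => gma_delta (he i) (het i) (hu' i) (hvu' i)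
  have hinjM : ∀ M M' : Matrix (Fin 2) (Fin 2) T,
      (∀ i, (ψ i).mapMatrix M = (ψ i).mapMatrix M') → M = M' := by
    intro M M' h
    ext j l
    rw [← sub_eq_zero]
    refine hinj _ fun i => ?_
    rw [map_sub, sub_eq_zero]
    have := congrFun (congrFun (h i) j) l
    simpa [RingHom.mapMatrix_apply, Matrix.map_apply] using this
  refine ⟨{ toFun := F₀
            map_one' := hinjM _ _ fun i => by
              rw [hF, map_one, gma_one (hδ i), map_one]
            map_mul' := fun σ τ => hinjM _ _ fun i => by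
              rw [hF, map_mul (r i),
                gma_mul (he i) (het i) (gmaK_left (he i)) (gmaL_right (he i)) (hsum i),
                map_mul, hF, hF] }, tW, fun σ => ?_, fun σ j l => rfl⟩
  rw [← sub_eq_zero]
  refine hinj _ fun i => ?_
  rw [map_sub, sub_eq_zero, htr]
  have h1 : ψ i (F₀ σ).trace = ((ψ i).mapMatrix (F₀ σ)).trace := by
    simp only [Matrix.trace, Matrix.diag_apply, RingHom.mapMatrix_apply, Matrix.map_apply,
      map_sum]
  show ψ i (F₀ σ).trace = _
  rw [h1, hF, gma_trace (hsum i)]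

end

end Fermat.Agent.S59.Car
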