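/-
Cluster J (S59), leaf CAR (helper22): comparison of adic topologies.
`T` Noetherian local, `ψ i : T → A i` finitely many finite ring homomorphisms to local rings,
jointly injective.  Then the `𝔪_T`-adic topology of `T` is induced by the `𝔪_{A i}`-adic
topologies (Artin–Rees + nilpotence of the maximal ideal of `A i / 𝔪_T A i`).
-/
import Mathlib

set_option autoImplicit false
set_option linter.style.haveILetI false

namespace Fermat.Agent.S59.Car

open IsLocalRing

/-- A power of the maximal ideal of a finite local algebra lies in the extension of the maximal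
ideal of the base. -/
lemma exists_pow_maximalIdeal_le_map {T : Type*} [CommRing T] [IsLocalRing T]
    {A : Type*} [CommRing A] [IsLocalRing A] (ψ : T →+* A) (hfin : ψ.Finite) :
    ∃ N : ℕ, maximalIdeal A ^ N ≤ (maximalIdeal T).map ψ := by
  letI : Algebra T A := ψ.toAlgebra
  haveI : Module.Finite T A := hfin
  letI : Field (T ⧸ maximalIdeal T) := Ideal.Quotient.field _
  haveI : Module.Finite (T ⧸ maximalIdeal T) (A ⧸ (maximalIdeal T).map (algebraMap T A)) :=
    Module.Finite.of_restrictScalars_finite T (T ⧸ maximalIdeal T)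
      (A ⧸ (maximalIdeal T).map (algebraMap T A))
  haveI : IsArtinianRing (A ⧸ (maximalIdeal T).map (algebraMap T A)) :=
    IsArtinianRing.of_finite (T ⧸ maximalIdeal T) (A ⧸ (maximalIdeal T).map (algebraMap T A))
  exact exists_maximalIdeal_pow_le_of_isArtinianRing_quotient
    ((maximalIdeal T).map (algebraMap T A))

/-- **Comparison of topologies.** -/
theorem exists_pow_of_forall_mem {T : Type*} [CommRing T] [IsLocalRing T] [IsNoetherianRing T]
    {ι : Type*} [Finite ι] (A : ι → Type*) [∀ i, CommRing (A i)] [∀ i, IsLocalRing (A i)]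
    (ψ : ∀ i, T →+* A i) (hfin : ∀ i, (ψ i).Finite)
    (hinj : ∀ t : T, (∀ i, ψ i t = 0) → t = 0) (n : ℕ) :
    ∃ n' : ℕ, ∀ t : T, (∀ i, ψ i t ∈ maximalIdeal (A i) ^ n') → t ∈ maximalIdeal T ^ n := by
  classical
  haveI : Fintype ι := Fintype.ofFinite ι
  letI : ∀ i, Algebra T (A i) := fun i => (ψ i).toAlgebra
  haveI : ∀ i, Module.Finite T (A i) := fun i => hfin i
  have hN : ∀ i, ∃ N : ℕ, maximalIdeal (A i) ^ N ≤ (maximalIdeal T).map (ψ i) :=
    fun i => exists_pow_maximalIdeal_le_map (ψ i) (hfin i)
  choose N hN using hN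
  set Nmax : ℕ := ∑ i, N i with hNmax
  have hNle : ∀ i, N i ≤ Nmax := fun i =>
    Finset.single_le_sum (f := N) (fun _ _ => Nat.zero_le _) (Finset.mem_univ i)
  -- the structure map into the product
  set f : T →ₗ[T] (∀ i, A i) := LinearMap.pi fun i => Algebra.linearMap T (A i) with hf
  have hfapp : ∀ t i, f t i = ψ i t := fun t i => rfl
  have hfinj : Function.Injective f := by
    rw [injective_iff_map_eq_zero]
    intro t ht
    exact hinj t fun i => by rw [← hfapp, ht]; rfl
  obtain ⟨k, hk⟩ := Ideal.exists_pow_inf_eq_pow_smul (maximalIdeal T) (LinearMap.range f)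
  refine ⟨Nmax * (n + k), fun t ht => ?_⟩
  -- `f t ∈ 𝔪^(n+k) • ⊤`
  have h1 : ∀ i, ψ i t ∈ (maximalIdeal T ^ (n + k)).map (ψ i) := by
    intro i
    have h2 : maximalIdeal (A i) ^ (Nmax * (n + k)) ≤ (maximalIdeal T ^ (n + k)).map (ψ i) := by
      rw [Ideal.map_pow, pow_mul]
      refine Ideal.pow_right_mono ?_ (n + k)
      exact (Ideal.pow_le_pow_right (hNle i)).trans (hN i)
    exact h2 (ht i)
  have h3 : ∀ i, ∀ a ∈ (maximalIdeal T ^ (n + k)).map (ψ i),
      (Pi.single i a : ∀ i, A i) ∈
        (maximalIdeal T ^ (n + k)) • (⊤ : Submodule T (∀ i, A i)) := by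
    intro i a ha
    have hmap : (maximalIdeal T ^ (n + k)).map (ψ i) =
        Ideal.span ((ψ i) '' (maximalIdeal T ^ (n + k) : Ideal T)) := rfl
    rw [hmap] at ha
    refine Submodule.span_induction (p := fun a _ => (Pi.single i a : ∀ i, A i) ∈
        (maximalIdeal T ^ (n + k)) • (⊤ : Submodule T (∀ i, A i))) ?_ ?_ ?_ ?_ ha
    · rintro _ ⟨s, hs, rfl⟩
      have : (Pi.single i (ψ i s) : ∀ i, A i) = s • (Pi.single i (1 : A i) : ∀ i, A i) := by
        rw [← Pi.single_smul]
        congr 1
        rw [Algebra.smul_def, mul_one]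
        rfl
      rw [this]
      exact Submodule.smul_mem_smul hs Submodule.mem_top
    · rw [Pi.single_zero]
      exact Submodule.zero_mem _
    · intro x y _ _ hx hy
      rw [Pi.single_add]
      exact Submodule.add_mem _ hx hy
    · intro a x _ hx
      have : (Pi.single i (a • x) : ∀ i, A i) =
          (Pi.single i a : ∀ i, A i) * (Pi.single i x : ∀ i, A i) := by
        rw [smul_eq_mul, Pi.single_mul]
      rw [this]
      -- multiplication by an element of the product preserves `I • ⊤`
      refine Submodule.smul_induction_on (p := fun z => (Pi.single i a : ∀ i, A i) * z ∈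
        (maximalIdeal T ^ (n + k)) • (⊤ : Submodule T (∀ i, A i))) hx ?_ ?_
      · intro s hs z _
        rw [mul_smul_comm]
        exact Submodule.smul_mem_smul hs Submodule.mem_top
      · intro z w hz hw
        rw [mul_add]
        exact Submodule.add_mem _ hz hw
  have h4 : f t ∈ (maximalIdeal T ^ (n + k)) • (⊤ : Submodule T (∀ i, A i)) := by
    have : f t = ∑ i, (Pi.single i (ψ i t) : ∀ i, A i) := by
      funext j
      rw [Finset.sum_apply, hfapp]
      simp
    rw [this]
    exact Submodule.sum_mem _ fun i _ => h3 i _ (h1 i)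
  have h5 : f t ∈ (maximalIdeal T ^ (n + k)) • (⊤ : Submodule T (∀ i, A i)) ⊓
      LinearMap.range f := ⟨h4, LinearMap.mem_range_self f t⟩
  rw [hk (n + k) (Nat.le_add_left k n), Nat.add_sub_cancel] at h5
  have h6 : (maximalIdeal T ^ n) • ((maximalIdeal T ^ k) • (⊤ : Submodule T (∀ i, A i)) ⊓
      LinearMap.range f) ≤ Submodule.map f ((maximalIdeal T ^ n) • (⊤ : Submodule T T)) := by
    rw [Submodule.map_smul'', Submodule.map_top]
    exact Submodule.smul_mono le_rfl inf_le_right
  obtain ⟨s, hs, hst⟩ := h6 h5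
  have hs' : s ∈ maximalIdeal T ^ n := by
    have : (maximalIdeal T ^ n) • (⊤ : Submodule T T) = maximalIdeal T ^ n := by
      rw [Ideal.smul_top_eq_map]
      simp
    rw [this] at hs
    exact hs
  rw [← hfinj hst]
  exact hs'

end Fermat.Agent.S59.Car
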