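/-
Cluster J (S59), leaf CAR (helper22): Carayol's lemma for `GaloisRepAdic`.
-/
import Mathlib
import Fermat.Prelude.Def_GaloisRep_Adic
import Fermat.Agent.Lib.TraceRigidity.GaloisRep
import Fermat.Agent.S59.Datum.Car.Descent
import Fermat.Agent.S59.Datum.Car.Topology

set_option autoImplicit false
set_option linter.style.haveILetI false
set_option linter.unusedSectionVars false

namespace Fermat.Agent.S59.Car

open Matrix IsLocalRing Fermat.Agent.TraceRigidity

/-- A vector all of whose entries lie in `I` lies in `I • ⊤`. -/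
lemma pi_mem_smul_top {T : Type*} [CommRing T] (I : Ideal T) {n : Type*} [Fintype n]
    [DecidableEq n] (v : n → T) (hv : ∀ j, v j ∈ I) :
    v ∈ I • (⊤ : Submodule T (n → T)) := by
  have : v = ∑ j, v j • (Pi.single j (1 : T) : n → T) := by
    funext k
    simp [Finset.sum_apply, Pi.single_apply]
  rw [this]
  exact Submodule.sum_mem _ fun j _ => Submodule.smul_mem_smul (hv j) Submodule.mem_top

/-- Coordinates of an element of `I • ⊤` lie in `I`. -/
lemma repr_mem_of_mem_smul_top' {A : Type*} [CommRing A] {V : Type*} [AddCommGroup V]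
    [Module A V] {ι : Type*} (b : Module.Basis ι A V) (I : Ideal A) {x : V}
    (hx : x ∈ I • (⊤ : Submodule A V)) (i : ι) : b.repr x i ∈ I := by
  refine Submodule.smul_induction_on (p := fun x => b.repr x i ∈ I) hx ?_ ?_
  · intro a ha v _
    rw [map_smul, Finsupp.smul_apply, smul_eq_mul]
    exact I.mul_mem_right _ ha
  · intro x y hx hy
    rw [map_add, Finsupp.add_apply]
    exact I.add_mem hx hy

/-- The Galois representation on `T²` given by a matrix-valued homomorphism which is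
continuous for the adic topology. -/
noncomputable def repOfMat {T : Type} [CommRing T] [IsLocalRing T]
    (F : (AlgebraicClosure ℚ ≃ₐ[ℚ] AlgebraicClosure ℚ) →* Matrix (Fin 2) (Fin 2) T)
    (hcont : ∀ n : ℕ, ∃ L : IntermediateField ℚ (AlgebraicClosure ℚ), FiniteDimensional ℚ L ∧
      ∀ σ : AlgebraicClosure ℚ ≃ₐ[ℚ] AlgebraicClosure ℚ, (∀ x ∈ L, σ x = x) →
        ∀ j l, (F σ - 1) j l ∈ maximalIdeal T ^ n) : GaloisRepAdic T :=
  { V := Fin 2 → T
    finrank_eq := Module.finrank_fin_fun T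
    ρ := ((Matrix.toLinAlgEquiv' : Matrix (Fin 2) (Fin 2) T ≃ₐ[T] Module.End T (Fin 2 → T)) :
      Matrix (Fin 2) (Fin 2) T →* Module.End T (Fin 2 → T)).comp F
    isAdicContinuous := by
      intro n
      obtain ⟨L, hL, h⟩ := hcont n
      refine ⟨L, hL, fun σ hσ v => ?_⟩
      have h1 : ((Matrix.toLinAlgEquiv' : Matrix (Fin 2) (Fin 2) T ≃ₐ[T]
          Module.End T (Fin 2 → T)) : Matrix (Fin 2) (Fin 2) T →* Module.End T (Fin 2 → T)).comp
            F σ v - v = (F σ - 1) *ᵥ v := by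
        rw [Matrix.sub_mulVec, Matrix.one_mulVec]
        rfl
      rw [h1]
      refine pi_mem_smul_top _ _ fun j => ?_
      rw [Matrix.mulVec, dotProduct]
      exact Ideal.sum_mem _ fun l _ => Ideal.mul_mem_right _ _ (h σ hσ j l) }

lemma repOfMat_trace {T : Type} [CommRing T] [IsLocalRing T]
    (F : (AlgebraicClosure ℚ ≃ₐ[ℚ] AlgebraicClosure ℚ) →* Matrix (Fin 2) (Fin 2) T)
    (hcont : ∀ n : ℕ, ∃ L : IntermediateField ℚ (AlgebraicClosure ℚ), FiniteDimensional ℚ L ∧
      ∀ σ : AlgebraicClosure ℚ ≃ₐ[ℚ] AlgebraicClosure ℚ, (∀ x ∈ L, σ x = x) →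
        ∀ j l, (F σ - 1) j l ∈ maximalIdeal T ^ n)
    (σ : AlgebraicClosure ℚ ≃ₐ[ℚ] AlgebraicClosure ℚ) :
    LinearMap.trace T (repOfMat F hcont).V ((repOfMat F hcont).ρ σ) = (F σ).trace :=
  Matrix.trace_toLin'_eq (F σ)

/-- **Carayol's lemma.** -/
theorem exists_galoisRepAdic_of_traces'
    {T : Type} [CommRing T] [IsLocalRing T] [IsNoetherianRing T]
    [IsAdicComplete (maximalIdeal T) T] [Finite (ResidueField T)]
    {ι : Type} [Finite ι] [Nonempty ι] (A : ι → Type) [∀ i, CommRing (A i)]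
    [∀ i, IsLocalRing (A i)]
    (ψ : ∀ i, T →+* A i) (hψ : ∀ i, IsLocalHom (ψ i)) (hfin : ∀ i, (ψ i).Finite)
    (hinj : ∀ t : T, (∀ i, ψ i t = 0) → t = 0)
    (ρ : ∀ i, GaloisRepAdic (A i))
    (tr : (AlgebraicClosure ℚ ≃ₐ[ℚ] AlgebraicClosure ℚ) → T)
    (htr : ∀ i σ, ψ i (tr σ) = (ρ i).trace σ)
    (habs : ∀ i, (ρ i).residual.IsAbsolutelyIrreducible) :
    ∃ ρT : GaloisRepAdic T, ∀ i, (ρT.baseChangeAlong (ψ i) (hψ i)).IsEquiv (ρ i) := by
  classical
  -- matrices
  set b : ∀ i, Module.Basis (Fin 2) (A i) (ρ i).V :=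
    fun i => Module.finBasisOfFinrankEq (A i) (ρ i).V (ρ i).finrank_eq with hb
  set r : ∀ i, (AlgebraicClosure ℚ ≃ₐ[ℚ] AlgebraicClosure ℚ) →* Matrix (Fin 2) (Fin 2) (A i) :=
    fun i => ((LinearMap.toMatrixAlgEquiv (b i) :
        Module.End (A i) (ρ i).V ≃ₐ[A i] Matrix (Fin 2) (Fin 2) (A i)) :
      Module.End (A i) (ρ i).V →* Matrix (Fin 2) (Fin 2) (A i)).comp (ρ i).ρ with hr
  have hra : ∀ i σ, r i σ = LinearMap.toMatrix (b i) (b i) ((ρ i).ρ σ) := fun i σ => rfl
  have htr' : ∀ i σ, ψ i (tr σ) = (r i σ).trace := by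
    intro i σ
    rw [htr, hra, ← LinearMap.trace_eq_matrix_trace (A i) (b i)]
    rfl
  obtain ⟨i₀⟩ := ‹Nonempty ι›
  obtain ⟨g, hg⟩ := exists_isUnit_det_coordMat (ρ i₀) (habs i₀) (b i₀)
  have hg' : IsUnit (coordMat (r i₀) g).det := hg
  obtain ⟨F, coef, hFtr, hFcoef⟩ := exists_rep_of_traces ψ hψ r tr htr' g i₀ hg' hinj
  -- continuity
  have hcont : ∀ n : ℕ, ∃ L : IntermediateField ℚ (AlgebraicClosure ℚ), FiniteDimensional ℚ L ∧
      ∀ σ : AlgebraicClosure ℚ ≃ₐ[ℚ] AlgebraicClosure ℚ, (∀ x ∈ L, σ x = x) →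
        ∀ j l, (F σ - 1) j l ∈ maximalIdeal T ^ n := by
    intro n
    obtain ⟨n', hn'⟩ := exists_pow_of_forall_mem A ψ hfin hinj n
    have hL : ∀ i, ∃ L : IntermediateField ℚ (AlgebraicClosure ℚ), FiniteDimensional ℚ L ∧
        ∀ σ : AlgebraicClosure ℚ ≃ₐ[ℚ] AlgebraicClosure ℚ, (∀ x ∈ L, σ x = x) →
          ∀ v : (ρ i).V, (ρ i).ρ σ v - v ∈
            (maximalIdeal (A i) ^ n') • (⊤ : Submodule (A i) (ρ i).V) :=
      fun i => (ρ i).isAdicContinuous n'
    choose L hLfin hLσ using hL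
    haveI : ∀ i, FiniteDimensional ℚ (L i) := hLfin
    refine ⟨⨆ i, L i, IntermediateField.finiteDimensional_iSup_of_finite, fun σ hσ j l => ?_⟩
    have hσi : ∀ i, ∀ x ∈ L i, σ x = x := fun i x hx => hσ x (le_iSup L i hx)
    -- entries of `r i σ - 1`
    have hent : ∀ i p q, (r i σ - 1) p q ∈ maximalIdeal (A i) ^ n' := by
      intro i p q
      have h1 : (r i σ - 1) p q = (b i).repr ((ρ i).ρ σ (b i q) - b i q) p := by
        rw [Matrix.sub_apply, hra, LinearMap.toMatrix_apply, map_sub, Finsupp.sub_apply,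
          Module.Basis.repr_self, Matrix.one_apply, Finsupp.single_apply]
        congr 1
        by_cases hpq : p = q
        · rw [if_pos hpq, if_pos hpq.symm]
        · rw [if_neg hpq, if_neg (Ne.symm hpq)]
      rw [h1]
      exact repr_mem_of_mem_smul_top' (b i) _ (hLσ i σ (hσi i) (b i q)) p
    have htrm : ∀ c, tr (g c * σ) - tr (g c) ∈ maximalIdeal T ^ n := by
      intro c
      refine hn' _ fun i => ?_
      rw [map_sub, htr', htr', map_mul, ← Matrix.trace_sub]
      have h2 : r i (g c) * r i σ - r i (g c) = r i (g c) * (r i σ - 1) := by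
        rw [mul_sub, mul_one]
      rw [h2, Matrix.trace, Finset.sum_congr rfl fun p _ => Matrix.diag_apply _ p]
      refine Ideal.sum_mem _ fun p _ => ?_
      rw [Matrix.mul_apply]
      exact Ideal.sum_mem _ fun q _ => Ideal.mul_mem_left _ _ (hent i q p)
    have h3 : (F σ - 1) j l = ∑ c, coef j l c * (tr (g c * σ) - tr (g c)) := by
      have h1 : (1 : Matrix (Fin 2) (Fin 2) T) = F 1 := (map_one F).symm
      rw [Matrix.sub_apply]
      conv_lhs => rw [h1]
      rw [hFcoef, hFcoef, ← Finset.sum_sub_distrib]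
      refine Finset.sum_congr rfl fun c _ => ?_
      rw [mul_one, mul_sub]
    rw [h3]
    exact Ideal.sum_mem _ fun c _ => Ideal.mul_mem_left _ _ (htrm c)
  refine ⟨repOfMat F hcont, fun i => ?_⟩
  -- equivalence via trace rigidity
  have hE : (ρ i).IsEquiv ((repOfMat F hcont).baseChangeAlong (ψ i) (hψ i)) := by
    refine isEquiv_of_trace_eq (ρ i) _ (habs i) fun σ => ?_
    letI : Algebra T (A i) := (ψ i).toAlgebra
    have h1 : LinearMap.trace (A i) ((repOfMat F hcont).baseChangeAlong (ψ i) (hψ i)).V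
        (((repOfMat F hcont).baseChangeAlong (ψ i) (hψ i)).ρ σ) =
        algebraMap T (A i) (LinearMap.trace T (repOfMat F hcont).V ((repOfMat F hcont).ρ σ)) :=
      LinearMap.trace_baseChange ((repOfMat F hcont).ρ σ) (A i)
    rw [h1, repOfMat_trace, hFtr]
    exact (htr i σ).symm
  obtain ⟨E⟩ := hE
  exact ⟨E.symm⟩

end Fermat.Agent.S59.Car
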